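import Fermat.Statements.S02

set_option autoImplicit false
open FreyPackage

namespace Fermat.Agent.S02

/-- Step 1: make the triple coprime. -/
theorem exists_coprime (a b c : ℤ) (ha : a ≠ 0) (hb : b ≠ 0) (hc : c ≠ 0) (p : ℕ)
    (hp : p ≠ 0) (H : a ^ p + b ^ p = c ^ p) :
    ∃ a' b' c' : ℤ, a' ≠ 0 ∧ b' ≠ 0 ∧ c' ≠ 0 ∧ IsCoprime a' b' ∧ a' ^ p + b' ^ p = c' ^ p := by
  obtain ⟨d, hd⟩ : ∃ d : ℤ, d = (Int.gcd a b : ℤ) := ⟨_, rfl⟩
  have hd0 : d ≠ 0 := by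
    have : Int.gcd a b ≠ 0 := by
      rw [Ne, Int.gcd_eq_zero_iff]; tauto
    rw [hd]
    exact_mod_cast this
  have hda : d ∣ a := hd ▸ Int.gcd_dvd_left a b
  have hdb : d ∣ b := hd ▸ Int.gcd_dvd_right a b
  have hdc : d ∣ c := by
    rw [← Int.pow_dvd_pow_iff hp, ← H]
    exact dvd_add (pow_dvd_pow_of_dvd hda p) (pow_dvd_pow_of_dvd hdb p)
  have hcop : IsCoprime (a / d) (b / d) := by
    have hpos : 0 < Int.gcd a b := Nat.pos_of_ne_zero (by rw [hd] at hd0; exact_mod_cast hd0)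
    have h1 := Int.gcd_div_gcd_div_gcd (i := a) (j := b) hpos
    rw [← Int.isCoprime_iff_gcd_eq_one] at h1
    rwa [← hd] at h1
  obtain ⟨a', ha'⟩ := hda
  obtain ⟨b', hb'⟩ := hdb
  obtain ⟨c', hc'⟩ := hdc
  have e1 : a / d = a' := by
    rw [ha']; exact Int.mul_ediv_cancel_left _ hd0
  have e2 : b / d = b' := by
    rw [hb']; exact Int.mul_ediv_cancel_left _ hd0
  rw [e1, e2] at hcop
  refine ⟨a', b', c', ?_, ?_, ?_, hcop, ?_⟩
  · rintro rfl; exact ha (by rw [ha', mul_zero])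
  · rintro rfl; exact hb (by rw [hb', mul_zero])
  · rintro rfl; exact hc (by rw [hc', mul_zero])
  · have hdp : d ^ p ≠ 0 := pow_ne_zero _ hd0
    apply mul_left_cancel₀ hdp
    rw [mul_add, ← mul_pow, ← mul_pow, ← mul_pow, ← ha', ← hb', ← hc', H]

theorem result (a b c : ℤ) (ha : a ≠ 0) (hb : b ≠ 0) (hc : c ≠ 0) (p : ℕ) (pp : p.Prime) (hp5 : 5 ≤ p) (H : a ^ p + b ^ p = c ^ p) : Nonempty FreyPackage := by
  have hp0 : p ≠ 0 := by omega
  have hodd : Odd p := pp.odd_of_ne_two (by omega)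
  obtain ⟨a, b, c, ha, hb, hc, hab, H⟩ := exists_coprime a b c ha hb hc p hp0 H
  -- Step 2: arrange for `b` to be even and `a` odd.
  obtain ⟨a, b, c, ha, hb, hc, hab, H, hbe⟩ : ∃ a b c : ℤ, a ≠ 0 ∧ b ≠ 0 ∧ c ≠ 0 ∧
      IsCoprime a b ∧ a ^ p + b ^ p = c ^ p ∧ Even b := by
    by_cases hbe : Even b
    · exact ⟨a, b, c, ha, hb, hc, hab, H, hbe⟩
    by_cases hae : Even a
    · exact ⟨b, a, c, hb, ha, hc, hab.symm, by rw [add_comm]; exact H, hae⟩
    -- both odd, so `c` is even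
    have hao : Odd a := Int.not_even_iff_odd.mp hae
    have hbo : Odd b := Int.not_even_iff_odd.mp hbe
    have hce : Even c := by
      have h1 : Even (c ^ p) := by
        rw [← H]; exact (hao.pow).add_odd (hbo.pow)
      exact (Int.even_pow.mp h1).1
    refine ⟨a, -c, -b, ha, neg_ne_zero.mpr hc, neg_ne_zero.mpr hb, ?_, ?_, hce.neg⟩
    · -- IsCoprime a (-c)
      have hac : IsCoprime a c := by
        have h2 : IsCoprime (a ^ p) (c ^ p) := by
          rw [← H, add_comm]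
          have : IsCoprime (a ^ p) (b ^ p) := hab.pow
          simpa using this.add_mul_left_right 1
        exact (IsCoprime.pow_iff (Nat.pos_of_ne_zero hp0) (Nat.pos_of_ne_zero hp0)).mp h2
      exact hac.neg_right
    · rw [hodd.neg_pow, hodd.neg_pow]; linarith
  -- Step 3: arrange `a ≡ 3 mod 4`.
  have hao : Odd a := by
    rw [← Int.not_even_iff_odd]
    intro hae
    have h2a : (2 : ℤ) ∣ a := even_iff_two_dvd.mp hae
    have h2b : (2 : ℤ) ∣ b := even_iff_two_dvd.mp hbe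
    have := hab.isUnit_of_dvd' h2a h2b
    rw [Int.isUnit_iff] at this
    omega
  obtain ⟨a, b, c, ha, hb, hc, hab, H, hbe, ha4⟩ : ∃ a b c : ℤ, a ≠ 0 ∧ b ≠ 0 ∧ c ≠ 0 ∧
      IsCoprime a b ∧ a ^ p + b ^ p = c ^ p ∧ Even b ∧ a % 4 = 3 := by
    have h4 : a % 4 = 1 ∨ a % 4 = 3 := by
      have := Int.odd_iff.mp hao
      omega
    rcases h4 with h4 | h4
    · refine ⟨-a, -b, -c, neg_ne_zero.mpr ha, neg_ne_zero.mpr hb, neg_ne_zero.mpr hc,
        hab.neg_neg, ?_, hbe.neg, by omega⟩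
      rw [hodd.neg_pow, hodd.neg_pow, hodd.neg_pow]; linarith
    · exact ⟨a, b, c, ha, hb, hc, hab, H, hbe, h4⟩
  refine ⟨⟨a, b, c, ha, hb, hc, p, pp, hp5, H, ?_, ?_, ?_⟩⟩
  · have := Int.isCoprime_iff_gcd_eq_one.mp hab
    change ((Int.gcd a b : ℕ) : ℤ) = 1
    exact_mod_cast this
  · have h3 : ((3 : ℤ) : ZMod 4) = 3 := by norm_cast
    rw [← h3, ZMod.intCast_eq_intCast_iff]
    change a % 4 = 3 % 4
    omega
  · rw [ZMod.intCast_zmod_eq_zero_iff_dvd]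
    exact_mod_cast even_iff_two_dvd.mp hbe

end Fermat.Agent.S02
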