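import Fermat.Statements.S05
import Fermat.Agent.S05.Frey
import Fermat.Agent.S05.Core

set_option autoImplicit false
open WeierstrassCurve WeierstrassCurve.Affine WeierstrassCurve.Affine.Point
open CuspForm ModularFormClass UpperHalfPlane
open FreyPackage

namespace Fermat.Agent.S05

theorem result (P : FreyPackage) {q : ℕ} (hq : q.Prime) (hq2 : q ≠ 2) (hqp : q ≠ P.p) : P.GaloisRepUnramifiedAt q := by
  obtain ⟨C, a₂, a₄, hC, h⟩ := Frey.exists_model_int P hq
  apply Frey.transfer_frey P C q
  rw [hC]
  exact Core.core P.pp hq hq2 hqp a₂ a₄ h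

end Fermat.Agent.S05
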