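import Fermat.Statements.S10
import Fermat.Agent.S10.Regular
import Fermat.Agent.S10.SophieGermain
import Fermat.Agent.S10.CycloPID

set_option autoImplicit false
open WeierstrassCurve WeierstrassCurve.Affine WeierstrassCurve.Affine.Point
open CuspForm ModularFormClass UpperHalfPlane
open FreyPackage

namespace Fermat.Agent.S10

/-- There is no Frey package with `p ∈ {5, 7, 13}` (Kummer: Fermat's Last Theorem for these
exponents, as `ℤ[ζ_p]` is a principal ideal domain). -/
theorem no_frey_small (P : FreyPackage) (hp : P.p = 5 ∨ P.p = 7 ∨ P.p = 13) : False := by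
  refine Fermat.Agent.S10.Regular.no_frey_of_pid P ?_ ?_
  · intro K _ _ hK
    rcases hp with hp | hp | hp
    · have hK' : IsCyclotomicExtension {5} ℚ K := hp ▸ hK
      exact IsCyclotomicExtension.Rat.five_pid K
    · have hK' : IsCyclotomicExtension {7} ℚ K := hp ▸ hK
      exact Fermat.Agent.S10.CycloPID.seven_pid K
    · have hK' : IsCyclotomicExtension {13} ℚ K := hp ▸ hK
      exact Fermat.Agent.S10.CycloPID.thirteen_pid K
  · intro a b c hab h
    refine Fermat.Agent.S10.SophieGermain.caseI ?_ hab h
    rcases hp with hp | hp | hp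
    · exact Or.inl hp
    · exact Or.inr (Or.inl hp)
    · exact Or.inr (Or.inr (Or.inr hp))

theorem result (P : FreyPackage) (hp : P.p = 5 ∨ P.p = 7 ∨ P.p = 13) : ¬ HasGaloisStableCofixedLine (K := AlgebraicClosure ℚ) ℚ P.freyCurve P.p := by
  exact (no_frey_small P hp).elim

end Fermat.Agent.S10
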