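import Fermat.Statements.S11
import Fermat.Agent.S10.Regular
import Fermat.Agent.S10.SophieGermain
import Fermat.Agent.S10.PID11

set_option autoImplicit false
open WeierstrassCurve WeierstrassCurve.Affine WeierstrassCurve.Affine.Point
open CuspForm ModularFormClass UpperHalfPlane
open FreyPackage

namespace Fermat.Agent.S11

/-- There is no Frey package with `p = 11` (Kummer: Fermat's Last Theorem for the exponent `11`,
as `ℤ[ζ₁₁]` is a principal ideal domain). -/
theorem no_frey_eleven (P : FreyPackage) (hp : P.p = 11) : False := by
  refine Fermat.Agent.S10.Regular.no_frey_of_pid P ?_ ?_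
  · intro K _ _ hK
    have hK' : IsCyclotomicExtension {11} ℚ K := hp ▸ hK
    exact Fermat.Agent.S10.PID11.pid_eleven K
  · intro a b c hab h
    exact Fermat.Agent.S10.SophieGermain.caseI (Or.inr (Or.inr (Or.inl hp))) hab h

theorem result (P : FreyPackage) (hp : P.p = 11) : ¬ HasGaloisStableCofixedLine (K := AlgebraicClosure ℚ) ℚ P.freyCurve P.p := by
  exact (no_frey_eleven P hp).elim

end Fermat.Agent.S11
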