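import Fermat.Statements.S13
import Fermat.Agent.S13.Chars
import Fermat.Agent.S13.OddPrimes
import Fermat.Agent.S13.AtPFrey
import Fermat.Agent.S13.AtTwoFrey
import Fermat.Agent.S13.FreyTwo
import Fermat.Agent.S13.NoRatTorsion
import Fermat.Agent.S51.Fixed
import Fermat.Agent.Lib.Minkowski

/-!
# S13: a reducible mod `p` representation of the Frey curve has a Galois-stable cofixed line

Assembly of the local inputs (inertia at the odd primes `ℓ ≠ p`: `OddPrimes`; inertia at `2`:
`AtTwoFrey`; inertia at `p`: `AtPFrey`), Hermite-Minkowski (`Lib.Minkowski`), the absence of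
rational points of order `p` (`NoRatTorsion`) and the Galois bookkeeping of `Chars`.
-/

set_option autoImplicit false
open WeierstrassCurve WeierstrassCurve.Affine WeierstrassCurve.Affine.Point
open CuspForm ModularFormClass UpperHalfPlane
open FreyPackage

namespace Fermat.Agent.S13

theorem result (P : FreyPackage) (hred : ¬ GaloisRepIsIrreducible (K := AlgebraicClosure ℚ) ℚ P.freyCurve P.p) : HasGaloisStableCofixedLine (K := AlgebraicClosure ℚ) ℚ P.freyCurve P.p := by
  have hpF : Fact P.p.Prime := ⟨P.pp⟩
  have hGal := Fermat.Agent.S51.Fixed.isGalois_algebraicClosure_rat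
  have hfin : Finite (Submodule.torsionBy ℤ (P.freyCurve⁄(AlgebraicClosure ℚ)).Point P.p) :=
    FreyTwo.finite_torsion P
  refine Chars.main (FreyTwo.nontrivial_torsion P) (FreyTwo.card_torsion_lt P) hred
    (fun H hn ho hI => by
      have := hn
      exact Fermat.Agent.Lib.Minkowski.eq_top_of_inertia_le H ho hI) ?_
    (fun N hN hN0 hN1 => AtPFrey.hp' P N hN hN0 hN1)
    (fun R hR => NoRatTorsion.frey_torsion_eq_zero P R hR)
  intro ℓ hℓ hℓp A hA σ hσ x
  by_cases h2 : ℓ = 2
  · subst h2
    exact Chars.unipotent_of_points σ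
      (fun Q hQ => AtTwoFrey.frey_unipotent P A hA hσ hQ) x
  · exact Chars.unipotent_of_trivial σ (OddPrimes.smul_eq P hℓ h2 hℓp A hA σ hσ) x

end Fermat.Agent.S13
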