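import Fermat.Statements.S14
import Fermat.Agent.S14.Reduce
import Fermat.Agent.S14.DictFixed
import Fermat.Agent.S14.Core
import Fermat.Agent.S14.Jacobi
import Fermat.Agent.S14.Density
import Fermat.Agent.S14.NormIndex
import Fermat.Agent.S14.PairToRec
import Fermat.Agent.S14.Crossing

set_option autoImplicit false
set_option linter.style.haveILetI false
open ExtCitation

namespace Fermat.Agent.S14

open NumberField in
theorem result {p : ℕ} [Fact p.Prime] (h3 : 3 ≤ p) :
    ExtCitation.ExtVanishingCts p := by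
  have hp : p.Prime := Fact.out
  have hp2 : p ≠ 2 := by omega
  refine Reduce.extVanishingCts_of_core h3 ?_
  intro N hNn hNopen hNH hidx hI hconj
  haveI := hNn
  haveI : IsGalois ℚ (AlgebraicClosure ℚ) := Reduce.isGalois_rat
  have hH := Reduce.isOpen_ker p
  haveI := DictFixed.numberField_KF hH
  haveI := DictFixed.numberField_LF hNH hNopen
  haveI := DictFixed.isGalois_LF (H := (Reduce.omega p).ker) (N := N) hNH
  obtain ⟨σ, hσ, hconj'⟩ := DictFixed.exists_sigma (Reduce.omega p) (Reduce.omega_surjective p)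
    hH hNH hNopen hidx
    (fun τ => ⟨((Reduce.omega p τ : (ZMod p)ˣ) : ZMod p).val, by simp,
      fun s hs => hconj τ s hs _ (by simp)⟩)
  have hdeg : Module.finrank (DictFixed.KF (Reduce.omega p).ker)
      (DictFixed.LF (Reduce.omega p).ker N hNH) = p := by
    rw [DictFixed.finrank_LF hNH hH hNopen, hidx]
  have hunr := DictFixed.unramifiedEverywhere_LF hNH hH hNopen hI
  haveI : IsCyclotomicExtension {p} ℚ ↥(DictFixed.KF (Reduce.omega p).ker) :=
    Reduce.isCyclotomicExtension_fixedField p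
  have hK : IsTotallyComplex ↥(DictFixed.KF (Reduce.omega p).ker) :=
    IsCyclotomicExtension.Rat.isTotallyComplex _ (by omega : 2 < p)
  have hσ' : ∀ (c : (ZMod p)ˣ) (ζ : ↥(DictFixed.KF (Reduce.omega p).ker)), ζ ^ p = 1 →
      σ c ζ = ζ ^ (c : ZMod p).val := by
    intro c ζ hζ
    obtain ⟨τ₀, hτ₀, hx⟩ := hσ c
    apply Subtype.ext
    rw [hx ζ]
    have hζ' : (ζ : AlgebraicClosure ℚ) ^ p = 1 := by
      have := congrArg (fun z : ↥(DictFixed.KF (Reduce.omega p).ker) => (z : AlgebraicClosure ℚ)) hζ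
      simpa using this
    rw [Reduce.omega_spec p τ₀ hζ', Reduce.cycloExp_eq, hτ₀]
    rfl
  exact Core.core hp2 hdeg hunr σ hconj' (PairToRec.exists_artinMap_of_pair hp hdeg hunr
      (NormIndex.normClasses_ne_top hp hdeg hunr hK) (Crossing.pair hp hp2 hdeg hunr))
    (fun S => Density.exists_not_split (by rw [hdeg]; exact hp.one_lt) S)
    (fun 𝔮 h𝔮 hd hq τ hτ => Jacobi.prod_mk0_eq_one hp2 σ hσ' 𝔮 h𝔮 hd hq τ hτ)

end Fermat.Agent.S14
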