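import Fermat.Statements.S20
import Fermat.Agent.S20.Defs
import Fermat.Agent.S20.Count
import Fermat.Agent.S20.Free
import Fermat.Agent.S20.InvertibleAll
import Fermat.Agent.S20.DualCount

set_option autoImplicit false
open CuspForm

namespace Fermat.Agent.S20

theorem result (N : ℕ) [NeZero N] :
    (Module.finrank ℂ (CuspForm (CongruenceSubgroup.Gamma0 N) 2) : ℚ) = ModularCurve.genusFormula N := by
  obtain ⟨B⟩ := Free.nonempty_freeBasis N
  rw [Dual.finrank_cuspForm_two B]
  exact Count.mult_ten_eq_genusFormula N B.k (Dual.weight_cases B) (Dual.mult_zero B)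
    (Invertible.card_weight_mod_four B) (Invertible.card_weight_mod_six_two B)
    (Invertible.card_weight_mod_six_four B) (Dual.cusp_relation B)

end Fermat.Agent.S20
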