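import Fermat.Statements.S22
import Fermat.Agent.S22.HeckeCoset
import Fermat.Agent.S22.Trivial
import Fermat.Agent.S22.GroupFG
import Fermat.Agent.S22.Injective

/-!
# S22: the Hecke algebra of cusp forms on `Γ₀(N)` is a finitely generated `ℤ`-module

Weights `k ≤ 0` and odd weights: the space of cusp forms is zero.  Weights `k = n + 2 ≥ 2`:
the Eichler–Shimura period cocycle `f ↦ kappa n k f` embeds the space of cusp forms
Hecke-equivariantly into cocycles of the finitely generated group `Γ₀(N)` with values in the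
complexification of the finitely generated lattice of integral homogeneous polynomials of
degree `n`; the Hecke operators preserve the lattice of integral cocycles.
-/

set_option autoImplicit false
open CuspForm

namespace Fermat.Agent.S22

open UpperHalfPlane Complex Matrix ModularForm CongruenceSubgroup
open scoped MatrixGroups ModularForm

/-- The period cocycle as a linear map. -/
noncomputable def kappaLin (N : ℕ) [NeZero N] (n : ℕ) (k : ℤ) :
    CuspForm (Gamma0 N) k →ₗ[ℂ] (↥(Gamma0 N) → PolyFun) where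
  toFun f γ := kappa n k ⇑f (γ : SL(2, ℤ))
  map_add' f g := by
    ext γ : 1
    have : (⇑(f + g) : ℍ → ℂ) = ⇑f + ⇑g := rfl
    rw [Pi.add_apply, this]
    exact kappa_add (allGood_coe_cuspForm f) (allGood_coe_cuspForm g) _
  map_smul' c f := by
    ext γ : 1
    rw [Pi.smul_apply, RingHom.id_apply]
    have : (⇑(c • f) : ℍ → ℂ) = c • ⇑f := rfl
    rw [this]
    exact kappa_smul _ c _

theorem kappaLin_apply (N : ℕ) [NeZero N] (n : ℕ) (k : ℤ) (f : CuspForm (Gamma0 N) k)
    (γ : ↥(Gamma0 N)) : kappaLin N n k f γ = kappa n k ⇑f (γ : SL(2, ℤ)) := rfl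

/-- Finiteness of the Hecke algebra in weight `k = n + 2`. -/
theorem moduleFinite_heckeAlgebra_of_eq (N : ℕ) [NeZero N] (n : ℕ) (k : ℤ) (hk : k = (n : ℤ) + 2)
    (S : Set ℕ) : Module.Finite ℤ (CuspForm.heckeAlgebra N k S) := by
  have : Group.FG ↥(Gamma0 N) := gamma0_fg N
  refine finite_adjoin_of_cocycle (Γ := ↥(Gamma0 N)) (rhoSL.comp (Gamma0 N).subtype)
    (polyLattice n) (polyLattice_fg n) ?_ (kappaLin N n k) ?_ ?_ ?_ (heckeGenerators N k S) ?_
  · intro γ x hx
    exact act_mem_polyLattice _ hx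
  · intro f a b
    exact kappa_mul hk (allGood_coe_cuspForm f) a b (slash_eq_of_mem_Gamma0 f a.2)
      (slash_eq_of_mem_Gamma0 f b.2)
  · intro f γ
    exact kappa_mem_polySpace (allGood_coe_cuspForm f).good _ (allGood_coe_cuspForm f _)
  · intro f hf
    refine eq_zero_of_kappa_eq_zero hk f fun γ hγ => ?_
    exact hf ⟨γ, hγ⟩
  · rintro T (⟨ℓ, hℓ, hℓN, -, rfl⟩ | ⟨q, hqN, hq, -, rfl⟩)
    · exact exists_hecke_data_T hk hℓ hℓN
    · exact exists_hecke_data_U hk hq hqN

theorem result (N : ℕ) [NeZero N] (k : ℤ) (S : Set ℕ) :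
    Module.Finite ℤ (CuspForm.heckeAlgebra N k S) := by
  by_cases hk : k ≤ 1
  · refine heckeAlgebra_finite_of_forall_eq_zero N k S fun f => ?_
    rcases le_or_gt k 0 with h0 | h0
    · exact cuspForm_eq_zero_of_weight_nonpos N h0 f
    · have : k = 1 := by omega
      exact cuspForm_eq_zero_of_odd N (this ▸ odd_one) f
  · obtain ⟨n, hn⟩ : ∃ n : ℕ, k = (n : ℤ) + 2 := ⟨(k - 2).toNat, by omega⟩
    exact moduleFinite_heckeAlgebra_of_eq N n k hn S

end Fermat.Agent.S22
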