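import Fermat.Statements.S23
import Fermat.Agent.S20
import Fermat.Agent.S21.Assembly
import Fermat.Agent.S21.Injective
import Fermat.Agent.S23.LinAlgCore
import Fermat.Agent.S23.HomSpan
import Fermat.Agent.S23.Duality
import Fermat.Agent.S23.HeckeHom

set_option autoImplicit false
open CuspForm

namespace Fermat.Agent.S23

theorem result (N : ℕ) [NeZero N] : CuspForm.HasIntegralStructure N 2 := by
  classical
  -- Eichler-Shimura (S21): the period map is injective with image the parabolic homs
  obtain ⟨hinj, hrange⟩ := Fermat.Agent.S21.Assembly.of_injective N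
    (Fermat.Agent.S21.periodHomPair_injective N) (Fermat.Agent.S20.result N)
  -- the period map, valued in functions on `Γ₀(N)`
  let coe : (Additive (CongruenceSubgroup.Gamma0 N) →+ ℂ) →ₗ[ℂ]
      (Additive (CongruenceSubgroup.Gamma0 N) → ℂ) :=
    { toFun := fun φ γ => φ γ
      map_add' := fun _ _ => rfl
      map_smul' := fun _ _ => rfl }
  have hcoe : Function.Injective coe := fun φ φ' h =>
    AddMonoidHom.ext fun γ => congrFun h γ
  let E : (CuspForm (CongruenceSubgroup.Gamma0 N) 2 × CuspForm (CongruenceSubgroup.Gamma0 N) 2)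
      →ₗ[ℂ] (Additive (CongruenceSubgroup.Gamma0 N) → ℂ) :=
    coe ∘ₗ ModularCurve.periodHomPair N
  have hEapp : ∀ v γ, E v γ = ModularCurve.periodHomPair N v γ := fun _ _ => rfl
  have hE : Function.Injective E := hcoe.comp hinj
  -- integral vectors span
  have hspan : Submodule.span ℂ {v | ∀ x, ∃ m : ℤ, E v x = m} = ⊤ := by
    rw [eq_top_iff]
    intro v _
    have hv : ModularCurve.periodHomPair N v
        ∈ ModularCurve.Period.parabolicHoms ℂ (CongruenceSubgroup.Gamma0 N) ℂ := by
      rw [← hrange]
      exact ⟨v, rfl⟩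
    have h1 := mem_span_integral_parabolicHoms N _ hv
    have h2 : Submodule.span ℂ
        {φ | φ ∈ ModularCurve.Period.parabolicHoms ℂ (CongruenceSubgroup.Gamma0 N) ℂ ∧
            ∀ γ : CongruenceSubgroup.Gamma0 N, ∃ m : ℤ, φ (Additive.ofMul γ) = m}
        ≤ Submodule.map (ModularCurve.periodHomPair N)
          (Submodule.span ℂ {v | ∀ x, ∃ m : ℤ, E v x = m}) := by
      rw [Submodule.span_le]
      rintro φ ⟨hφ, hint⟩
      rw [← hrange] at hφ
      obtain ⟨w, rfl⟩ := hφ
      refine ⟨w, Submodule.subset_span ?_, rfl⟩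
      intro x
      exact hint (Additive.toMul x)
    obtain ⟨w, hw, hwv⟩ := h2 h1
    rw [← hinj hwv]
    exact hw
  apply hasIntegralStructure_of_rank N
  intro r s hs hind
  refine linearIndependent_of_integral_action E hE hspan s (fun i v hv => ?_) hind
  exact HeckeHom.intValued_of_mem_heckeAlgebra ∅ (hs i) hv

end Fermat.Agent.S23
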