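import Fermat.Statements.S16
import Fermat.Agent.S16.Frame
import Fermat.Agent.S16.Dual
import Fermat.Agent.S16.Lower
import Fermat.Agent.S16.UpperTwin

set_option autoImplicit false
open ModularCurve CuspForm
open ModularCurve

namespace Fermat.Agent.S16

theorem result
    (p : ℕ) [Fact p.Prime] :
    Nat.card (↥(heckeLatticeAlgebra p ∅) ⧸
        Ideal.map ((latticeRestrictHom p ∅).toRingHom.comp (heckeEvalForms p 2))
          (eisensteinIdeal p)) =
      eisensteinNumerator p :=
  Frame.card_eq_of_lower_upper p
    (fun t ht => Lower.dvd_ev p t fun f =>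
      LinearMap.congr_fun ((Dual.op_eq_zero_iff p t).mpr ht) f)
    (UpperTwin.upper p)

end Fermat.Agent.S16
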