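-- Statement S24: the genus of the function field of X₀(N) over ℚ̄ equals the classical genus formula.
-- Proof: Riemann–Hurwitz for j (Fermat/Agent/S24/*): fundamental identity (FFPlaces, FFFiber),
-- principal divisors (FFPrincipal), places = orbits of the local monodromy via analytic embeddings
-- (Embed, EmbedCount, SigmaPoint, SigmaCusp), degree [F : K(j)] = [SL₂(ℤ) : Γ₀(N)] (Degree),
-- orbit counts (OrbitCount) and S20 (integrality of the genus formula).
import Fermat.Statements.S24
import Fermat.Agent.S24.FiberInputs
import Fermat.Agent.S24.SigmaCusp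
import Fermat.Agent.S24.Degree
import Fermat.Agent.S24.FFPrincipal

set_option autoImplicit false
open ModularCurve

namespace Fermat.Agent.S24

theorem result (N : ℕ) [NeZero N]
    [AlgebraicCurve.HasCanonicalDivisor (K := AlgebraicClosure ℚ) (F := ↥(ModularCurve.modularFunctionFieldBar N))] :
    (AlgebraicCurve.genus (AlgebraicClosure ℚ) ↥(ModularCurve.modularFunctionFieldBar N) : ℚ)
      = ModularCurve.genusFormula N := by
  haveI := Degree.finiteDimensional_jF N
  exact FiberInputs.genus_eq_genusFormula N (Degree.transcendental_jF N)
    (Degree.finiteDimensional_jF N) (Degree.finrank_jF N)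
    (FFPrincipal.exists_divisor (Eval.jF N) (Degree.transcendental_jF N))
    ⟨SigmaCusp.sigma N, N, (SigmaCusp.zeta N)⁻¹, SigmaCusp.localData N⟩

end Fermat.Agent.S24
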