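import Fermat.Statements.S28
import Fermat.Agent.S28.Assembly
import Fermat.Agent.S28.StarFinal
import Fermat.Agent.S28.Tower
import Fermat.Agent.S28.PrimeField
import Fermat.Agent.S28.ModEq
import Fermat.Agent.S28.UnitEq

set_option autoImplicit false
open AlgebraicGeometry CategoryTheory CategoryTheory.Limits ModularCurve ModularCurve.IgusaScheme
noncomputable section
set_option autoImplicit false
open ModularCurve ModularCurve.IgusaScheme

namespace Fermat.Agent.S28

set_option maxHeartbeats 4000000 in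
set_option synthInstance.maxHeartbeats 400000 in
theorem result
    (N : ℕ) [NeZero N] (ℓ : ℕ) [Fact ℓ.Prime] (hℓN : ¬ ℓ ∣ N)
    (K : Type) [Field K] [CharP K ℓ] [Algebra ↥(GaloisRep.ratLocalizedAt ℓ) K] :
    IsIntegral ↑(pullback (igusaTo N ℓ)
      (Spec.map (CommRingCat.ofHom (algebraMap ↥(GaloisRep.ratLocalizedAt ℓ) K)))) := by
  obtain ⟨k, _, _, _, hPD⟩ :=
    Fermat.Agent.S28.PrimeField.exists_field_of Fermat.Agent.S28.ModEq.exists_modEq
      Fermat.Agent.S28.UnitEq.exists_unitEq ℓ
  let _ : Algebra (ZMod ℓ) k := ZMod.algebra k ℓ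
  exact Fermat.Agent.S28.Assembly.isIntegral_of_star_tower N ℓ hℓN K k
    (Fermat.Agent.S28.StarFinal.starStmt k ℓ hPD)
    (Fermat.Agent.S28.Tower.towerStmt k ℓ hPD)

end Fermat.Agent.S28
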