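import Fermat.Statements.S37
import Fermat.Agent.S37.Leaves
import Fermat.Agent.S37.RedMap
import Fermat.Agent.S37.ESFinal

set_option autoImplicit false
open ModularCurve

namespace Fermat.Agent.S37

theorem result (N p : ℕ) [NeZero N] (hcomm : ModularCurve.HeckeOperatorsCommuteBar N) : letI := ModularCurve.heckeModuleBar N; ∀ (_ : SMulCommClass (AlgebraicClosure ℚ ≃ₐ[ℚ] AlgebraicClosure ℚ) ModularCurve.HeckeAlg (ModularCurve.JZero N)), ModularCurve.SpecializationExists (K := ℚ) (L := AlgebraicClosure ℚ) N p (ModularCurve.JZero N) :=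
  Fermat.Agent.S37Assembly.s37_of_leaves N p hcomm (fun ℓ hℓ hℓN _ hA =>
    haveI : Fact ℓ.Prime := ⟨hℓ⟩
    haveI : NeZero ℓ := ⟨hℓ.ne_zero⟩
    Fermat.Agent.S37Leaves.leaves_of hA hℓN
      (Fermat.Agent.S37RedMap.isPlaceReductionModL_rP hA hℓN)
      (fun h₀ hα hβ hPD P => Fermat.Agent.S37X.ESFinal.hES hA hℓN h₀ hα hβ hPD P))

end Fermat.Agent.S37
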