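import Fermat.Statements.S51
import Fermat.Agent.S51.Main
import Fermat.Agent.S51.Descent

set_option autoImplicit false
open WeierstrassCurve WeierstrassCurve.Affine WeierstrassCurve.Affine.Point
open CuspForm ModularFormClass UpperHalfPlane
open WeierstrassCurve

namespace Fermat.Agent.S51

theorem result (W : WeierstrassCurve ℤ) (hΔ : W.Δ ≠ 0) (hW : W.IsSemistableModel) : W.ModRepIsIrreducible 3 ∨ W.ModRepIsIrreducible 5 := by
  exact Fermat.Agent.S51.Main.result_of_descent Fermat.Agent.S51.Descent.rational_points W hΔ hW

end Fermat.Agent.S51
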