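import Fermat.Statements.S53
import Fermat.Agent.S53.Final
import Fermat.Agent.S53.ProRepB

set_option autoImplicit false
open GaloisRep

namespace Fermat.Agent.S53

open IsLocalRing Assembly in
/-- The functor of normalised deformations satisfies the hypotheses of the abstract
pro-representability theorem `ProRepB.exists_proRep`. -/
theorem functorHyp_ndFunctor_main
    {𝒪 : Type} [CommRing 𝒪] [IsLocalRing 𝒪] [Finite (ResidueField 𝒪)]
    {𝒟 : ∀ ⦃A : Type⦄ [CommRing A] [IsLocalRing A] [Algebra 𝒪 A], GaloisRepAdic A → Prop}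
    (h𝒟 : IsDeformationCondition 𝒪 𝒟)
    {ρbar : ResidualGaloisRep (ResidueField 𝒪)}
    {v : Module.Basis (Fin 2) (ResidueField 𝒪) ρbar.V}
    (hbar : 𝒟 (GaloisRepAdic.ofResidualGaloisRep ρbar))
    (hfin : TangentFinite 𝒪 ρbar 𝒟)
    (D : NormData 𝒪) (hc : IsMatLiftOf ρbar v D.c) :
    ProRepB.FunctorHyp (𝒪 := 𝒪) (X := Idx) (NDFunctor D 𝒟) where
  mem_max := fun _ _ _ _ _ _ h x => NDFam.mem_maximalIdeal h x
  map := fun _ _ _ _ _ _ _ _ hA hB φ hφ _ h => NDFam.map h𝒟 hA hB φ hφ h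
  of_pair := fun _ _ _ _ _ _ _ _ _ _ _ _ hP hA hB pA pB hpA hpB hinj _ h1 h2 =>
    NDFam.of_pair h𝒟 hP hA hB pA pB hpA hpB hinj h1 h2
  tangent := NDFam.finite_dualNumber hfin D hc
  point := ⟨ResidueField 𝒪, inferInstance, inferInstance, inferInstance,
    isArtinianTestAlgebra_residueField, fun _ => 0, NDFam.residual_zero h𝒟 hbar D hc⟩

open IsLocalRing Assembly in
theorem result
    (𝒪 : Type) [CommRing 𝒪] [IsDomain 𝒪] [IsDiscreteValuationRing 𝒪]
    [IsAdicComplete (IsLocalRing.maximalIdeal 𝒪) 𝒪] [Finite (IsLocalRing.ResidueField 𝒪)]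
    (ρbar : ResidualGaloisRep (IsLocalRing.ResidueField 𝒪))
    (𝒟 : ∀ ⦃A : Type⦄ [CommRing A] [IsLocalRing A] [Algebra 𝒪 A], GaloisRepAdic A → Prop)
    (habs : ρbar.IsAbsolutelyIrreducible)
    (h𝒟 : GaloisRep.IsDeformationCondition 𝒪 𝒟)
    (hbar : 𝒟 (GaloisRepAdic.ofResidualGaloisRep ρbar))
    (hfin : GaloisRep.TangentFinite 𝒪 ρbar 𝒟) :
    Nonempty (GaloisRep.DeformationRingData 𝒪 ρbar 𝒟) := by
  obtain ⟨v, D, hc⟩ := exists_normData (𝒪 := 𝒪) ρbar (burnside_span_eq_top ρbar habs)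
  obtain ⟨R, _, _, _, _, _, hloc, hres, u, U1, U2⟩ :=
    ProRepB.exists_proRep (functorHyp_ndFunctor_main h𝒟 hbar hfin D hc)
  have U1' : HypU1 𝒟 D u := U1
  have U2' : HypU2 𝒟 D u := U2
  exact ⟨{ R := R
           residue_surjective := hres
           absIrr := habs
           ρ := ofMat (univRep hloc hres U2') (matCont_univRep hloc hres U2')
           isOfType := cond_univRep hloc hres U2' h𝒟
           residual_isEquiv := residual_isEquiv_of_isLiftOf hc
             (IsLocalRing.ResidueField.map (algebraMap 𝒪 R)) (fun _ => rfl)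
             (matCont_univRep hloc hres U2') (isLiftOf_univRep hloc hres U2')
           universal := universal_of_hypU1 h𝒟 D hc (univRep hloc hres U2')
             (matCont_univRep hloc hres U2') (isLiftOf_univRep hloc hres U2')
             (isNormalized_univRep hloc hres U2') u (univRep_entry hloc hres U2') U1' }⟩

end Fermat.Agent.S53
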