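import Fermat.Statements.S57
import Fermat.Agent.S57.ParamList
import Fermat.Agent.S57.FreeMain
import Mathlib.RingTheory.MvPowerSeries.Equiv

set_option autoImplicit false
open Algebra Algebra.PatchingLevel

namespace Fermat.Agent.S57

open MvPowerSeries IsLocalRing

section Aux

variable {S : Type} [CommRing S] {N : Type} [AddCommGroup N] [Module S N]

/-- coordinates of an element of `I • ⊤` with respect to a basis lie in `I` -/
theorem coord_mem_of_mem_smul_top {ι : Type*} (β : Module.Basis ι S N) (I : Ideal S)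
    {x : N} (hx : x ∈ I • (⊤ : Submodule S N)) (i : ι) : β.coord i x ∈ I := by
  have hle : I • (⊤ : Submodule S N) ≤ Submodule.comap (β.coord i) I := by
    rw [Submodule.smul_le]
    intro a ha n _
    rw [Submodule.mem_comap, map_smul, smul_eq_mul]
    exact Ideal.mul_mem_right _ _ ha
  exact hle hx

end Aux

theorem result
    {𝒪 : Type} [CommRing 𝒪] [IsDomain 𝒪] [IsDiscreteValuationRing 𝒪]
    {r : ℕ} {R : Type} [CommRing R] [Algebra 𝒪 R]
    {M : Type} [AddCommGroup M] [Module R M] [Nontrivial M]
    (L : Algebra.PatchingLevel 𝒪 r R M ⊥) :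
    Module.Free R M ∧ Module.annihilator R M = ⊥ ∧
      RingHom.ker L.ψ = Ideal.span (Set.range fun i : Fin r => L.φ (MvPowerSeries.X i)) := by
  classical
  obtain ⟨ϖ, hϖ⟩ := IsDiscreteValuationRing.exists_irreducible 𝒪
  have hmax𝒪 : maximalIdeal 𝒪 = Ideal.span {ϖ} := hϖ.maximalIdeal_eq
  have hϖreg : IsSMulRegular 𝒪 ϖ := by
    intro a a' h
    exact mul_left_cancel₀ hϖ.ne_zero h
  have hreg := isWeaklyRegular_paramList (r := r) hϖreg
  have hmax := ofList_paramList_eq_maximalIdeal (r := r) hmax𝒪
  have hRnt : Nontrivial R := by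
    by_contra h
    rw [not_nontrivial_iff_subsingleton] at h
    have : Subsingleton M := Module.subsingleton R M
    exact not_subsingleton M this
  have hNnt : Nontrivial L.N := by
    obtain ⟨m, m', hmm'⟩ := exists_pair_ne M
    obtain ⟨x, rfl⟩ := L.π_surjective m
    obtain ⟨x', rfl⟩ := L.π_surjective m'
    exact ⟨x, x', fun h => hmm' (by rw [h])⟩
  have hφ : ∀ x ∈ paramList 𝒪 r ϖ, (L.φ : MvPowerSeries (Fin r) 𝒪 →+* MvPowerSeries (Fin r) 𝒪) x ∈
      maximalIdeal (MvPowerSeries (Fin r) 𝒪) := by
    intro x hx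
    unfold paramList at hx
    rw [List.mem_append] at hx
    rcases hx with hx | hx
    · unfold varList at hx
      rw [List.mem_ofFn] at hx
      obtain ⟨i, rfl⟩ := hx
      rw [mem_maximalIdeal, mem_nonunits_iff]
      intro hu
      have h1 : IsUnit (L.ψ (L.φ (X i))) := hu.map L.ψ
      rw [L.ψ_φ_X i] at h1
      exact not_isUnit_zero h1
    · rw [List.mem_singleton] at hx
      subst hx
      have h1 : L.φ (C ϖ) = C ϖ := by
        rw [c_eq_algebraMap]
        exact L.φ.commutes ϖ
      show L.φ (C ϖ) ∈ _
      rw [h1]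
      exact paramList_mem_maximalIdeal hmax𝒪 _ (by simp [paramList])
  have hfree : Module.Free (MvPowerSeries (Fin r) 𝒪) L.N :=
    free_of_regular_of_semilinear_basis
      (φ := (L.φ : MvPowerSeries (Fin r) 𝒪 →+* MvPowerSeries (Fin r) 𝒪)) (b := L.b)
      hreg hmax hφ L.b_span (fun c hc => by
        intro i
        have := (L.b_rel c).mp hc i
        simpa using this)
  have hfin : Module.Finite (MvPowerSeries (Fin r) 𝒪) L.N :=
    Module.Finite.of_surjective
      (coordMap (L.φ : MvPowerSeries (Fin r) 𝒪 →+* MvPowerSeries (Fin r) 𝒪) L.b)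
      (coordMap_surjective L.b_span)
  set I : Ideal (MvPowerSeries (Fin r) 𝒪) :=
    Ideal.span (Set.range fun i : Fin r => L.φ (MvPowerSeries.X i)) with hI
  let β := Module.Free.chooseBasis (MvPowerSeries (Fin r) 𝒪) L.N
  have hιne : Nonempty (Module.Free.ChooseBasisIndex (MvPowerSeries (Fin r) 𝒪) L.N) :=
    β.index_nonempty
  -- the key consequence of freeness
  have key : ∀ f : MvPowerSeries (Fin r) 𝒪, (∀ x : L.N, L.π (f • x) = 0) → f ∈ I := by
    intro f hf
    obtain ⟨i₀⟩ := hιne
    have h1 : f • β i₀ ∈ I • (⊤ : Submodule (MvPowerSeries (Fin r) 𝒪) L.N) :=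
      (L.ker_π _).mp (hf (β i₀))
    have h2 := coord_mem_of_mem_smul_top β I h1 i₀
    simpa using h2
  have hIker : I ≤ RingHom.ker L.ψ := by
    rw [hI, Ideal.span_le]
    rintro _ ⟨i, rfl⟩
    exact L.ψ_φ_X i
  have hker : RingHom.ker L.ψ = I := by
    apply le_antisymm _ hIker
    intro f hf
    apply key
    intro x
    rw [L.π_smul, (RingHom.mem_ker).mp hf, zero_smul]
  refine ⟨?_, ?_, hker⟩
  · -- freeness of `M` over `R`
    have hli : LinearIndependent R (fun i => L.π (β i)) := by
      rw [linearIndependent_iff']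
      intro s g hg i hi
      choose f hf using fun j => L.ψ_surjective (g j)
      have h1 : L.π (∑ j ∈ s, f j • β j) = 0 := by
        rw [map_sum, ← hg]
        refine Finset.sum_congr rfl fun j _ => ?_
        rw [L.π_smul, hf]
      have h2 := (L.ker_π _).mp h1
      have h3 := coord_mem_of_mem_smul_top β I h2 i
      have h4 : β.coord i (∑ j ∈ s, f j • β j) = f i := by
        rw [map_sum]
        simp only [map_smul, Module.Basis.coord_apply, Module.Basis.repr_self, smul_eq_mul]
        rw [Finset.sum_eq_single i]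
        · simp
        · intro j _ hji
          simp [hji]
        · intro h
          exact absurd hi h
      rw [h4] at h3
      rw [← hf i]
      exact (RingHom.mem_ker).mp (hIker h3)
    have hsp : ⊤ ≤ Submodule.span R (Set.range fun i => L.π (β i)) := by
      intro m _
      obtain ⟨x, rfl⟩ := L.π_surjective m
      rw [← β.sum_repr x, map_sum]
      refine Submodule.sum_mem _ fun j _ => ?_
      rw [L.π_smul]
      exact Submodule.smul_mem _ _ (Submodule.subset_span ⟨j, rfl⟩)
    exact Module.Free.of_basis (Module.Basis.mk hli hsp)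
  · -- faithfulness
    rw [eq_bot_iff]
    intro a ha
    rw [Module.mem_annihilator] at ha
    obtain ⟨f, rfl⟩ := L.ψ_surjective a
    have hfI : f ∈ I := by
      apply key
      intro x
      rw [L.π_smul]
      exact ha _
    exact (RingHom.mem_ker).mp (hIker hfI)

end Fermat.Agent.S57
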